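import Fermat.Agent.AbelianHeight.Congruence
import Fermat.Agent.Lehmer.Cyclotomic
import Fermat.Agent.Root.SummaryKroneckerWeber

/-!
# The theorem of Amoroso and Dvornicich for all numbers

At the prime `5` an element of a cyclotomic field, not zero and not a root of unity, has height at
least `log (5 / 2) / 10` times the degree; by Kronecker and Weber so has every element of an abelian
number field.
-/

set_option autoImplicit false
set_option linter.style.haveILetI false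

noncomputable section

namespace FA.AbelianHeight

open NumberField Polynomial Module IntermediateField FA.Lehmer

theorem height_bound_unramified {L : Type*} [Field L] [NumberField L] {m : ℕ} [NeZero m]
    [IsCyclotomicExtension {m} ℚ L] (hm : ¬ 5 ∣ m) {x : L} (hx0 : x ≠ 0)
    (hroot : ∀ k : ℕ, 0 < k → x ^ k ≠ 1) :
    (finrank ℚ L : ℝ) * (Real.log 5 - Real.log 2) ≤ 10 * Height.logHeight₁ x := by
  haveI : Fact (Nat.Prime 5) := ⟨Nat.prime_five⟩
  have hζ := IsCyclotomicExtension.zeta_spec m ℚ L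
  obtain ⟨σ, hσ⟩ := exists_aut hζ ((Nat.Prime.coprime_iff_not_dvd Nat.prime_five).2 hm)
  have hdiv : ∀ z : 𝓞 L, ∃ t : 𝓞 L, σ (z : L) ^ 1 - (z : L) ^ 5 = ((5 : ℕ) : L) * t := fun z => by
    obtain ⟨G, hG⟩ := exists_aeval_eq hζ z.isIntegral_coe
    obtain ⟨y, hy, hxy⟩ := aeval_pow_prime 5 G (hζ.isIntegral (NeZero.pos m))
    rw [← hσ, ← map_aeval_aut, hG] at hxy
    refine ⟨⟨y, hy⟩, ?_⟩
    show σ (z : L) ^ 1 - (z : L) ^ 5 = ((5 : ℕ) : L) * y
    rw [hxy]
    ring
  have hne : σ x ^ 1 ≠ x ^ 5 := by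
    intro h
    rw [pow_one] at h
    have hpow : ∀ n : ℕ, (σ ^ n) x = x ^ 5 ^ n := by
      intro n
      induction n with
      | zero => simp
      | succ n ih => rw [pow_succ' σ, AlgEquiv.mul_apply, ih, map_pow, h, ← pow_mul, ← pow_succ']
    obtain ⟨n, hn, hσn⟩ := (isOfFinOrder_of_finite σ).exists_pow_eq_one
    have h1 := hpow n
    rw [hσn, AlgEquiv.one_apply] at h1
    exact LocalDegrees.pow_ne_pow_of_not_root hx0 hroot
      (Nat.one_lt_pow hn.ne' (by norm_num : 1 < 5)) (by rw [pow_one]; exact h1.symm)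
  have := log_le_logHeight_congr σ (by norm_num : 0 < 5) one_ne_zero hdiv hne
  have h0 := Height.zero_le_logHeight₁ x
  push_cast at this
  linarith

theorem height_bound_ramified {L : Type*} [Field L] [NumberField L] {k : ℕ} [NeZero k]
    [IsCyclotomicExtension {5 * k} ℚ L] {ζ : L} (hζ : IsPrimitiveRoot ζ (5 * k)) {x : L}
    {σ : L ≃ₐ[ℚ] L} (hσ : σ (ζ ^ 5) = ζ ^ 5) (hne : σ x ^ 5 ≠ x ^ 5) :
    (finrank ℚ L : ℝ) * (Real.log 5 - Real.log 2) ≤ 10 * Height.logHeight₁ x := by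
  haveI : Fact (Nat.Prime 5) := ⟨Nat.prime_five⟩
  haveI : NeZero (5 * k) := ⟨by have := NeZero.pos k; omega⟩
  have hdiv : ∀ z : 𝓞 L, ∃ t : 𝓞 L, σ (z : L) ^ 5 - (z : L) ^ 5 = ((5 : ℕ) : L) * t := fun z => by
    obtain ⟨G, hG⟩ := exists_aeval_eq hζ z.isIntegral_coe
    obtain ⟨y, hy, hxy⟩ := aeval_pow_prime 5 G (hζ.isIntegral (NeZero.pos _))
    rw [hG] at hxy
    have hσy : IsIntegral ℤ (σ y) := map_isIntegral_int σ.toRingEquiv.toRingHom hy
    have h := congrArg σ hxy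
    rw [map_aeval_aut, hσ, map_add, map_pow, map_mul, map_natCast, hxy] at h
    refine ⟨⟨y - σ y, hy.sub hσy⟩, ?_⟩
    show σ (z : L) ^ 5 - (z : L) ^ 5 = ((5 : ℕ) : L) * (y - σ y)
    linear_combination -h
  have := log_le_logHeight_congr σ (by norm_num : 0 < 5) (by norm_num : (5 : ℕ) ≠ 0) hdiv hne
  push_cast at this
  linarith

/-- **Cyclotomic fields.** -/
theorem height_cyclotomic : ∀ (m : ℕ) (L : Type) [Field L] [NumberField L] [NeZero m]
    [IsCyclotomicExtension {m} ℚ L] (x : L), x ≠ 0 → (∀ k : ℕ, 0 < k → x ^ k ≠ 1) →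
    (finrank ℚ L : ℝ) * (Real.log 5 - Real.log 2) ≤ 10 * Height.logHeight₁ x := by
  intro m
  induction m using Nat.strong_induction_on with
  | _ m ih =>
  intro L _ _ _ _ x hx0 hroot
  by_cases hdvd : 5 ∣ m
  swap
  · exact height_bound_unramified hdvd hx0 hroot
  obtain ⟨k, rfl⟩ := hdvd
  have hpos : 0 < 5 * k := NeZero.pos (5 * k)
  haveI : NeZero k := ⟨by omega⟩
  have hζ := IsCyclotomicExtension.zeta_spec (5 * k) ℚ L
  set ζ := IsCyclotomicExtension.zeta (5 * k) ℚ L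
  by_cases hall : ∀ σ : L ≃ₐ[ℚ] L, σ (ζ ^ 5) = ζ ^ 5 → σ x ^ 5 = x ^ 5
  swap
  · push Not at hall
    obtain ⟨σ, hσ, hne⟩ := hall
    exact height_bound_ramified hζ hσ hne
  obtain ⟨w, hwroot, hmem⟩ := exists_root_mul_mem hζ hx0 hall
  have h5k : IsPrimitiveRoot (ζ ^ 5) k := hζ.pow hpos rfl
  set F := ℚ⟮ζ ^ 5⟯
  haveI : IsCyclotomicExtension {k} ℚ F := h5k.intermediateField_adjoin_isCyclotomicExtension ℚ
  set γ : F := ⟨x * w, hmem⟩
  have hmap : algebraMap F L γ = x * w := rfl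
  have hw0 : w ≠ 0 := fun h => by
    rw [h, zero_pow hpos.ne'] at hwroot
    exact zero_ne_one hwroot
  have hγ0 : γ ≠ 0 := fun h => mul_ne_zero hx0 hw0 (by rw [← hmap, h, map_zero])
  have hγroot : ∀ j : ℕ, 0 < j → γ ^ j ≠ 1 := fun j hj h => by
    have h' : (x * w) ^ j = 1 := by rw [← hmap, ← map_pow, h, map_one]
    have h'' : ((x * w) ^ j) ^ (5 * k) = 1 := by rw [h', one_pow]
    rw [← pow_mul, mul_pow, mul_comm j, pow_mul w, hwroot, one_pow, mul_one] at h''
    exact hroot _ (Nat.mul_pos hpos hj) h''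
  have := ih k (by omega) F γ hγ0 hγroot
  rw [← logHeight_mul_root hpos hwroot x, ← hmap, logHeight_map, ← finrank_mul_finrank ℚ F L,
    Nat.cast_mul]
  calc (finrank ℚ F : ℝ) * finrank F L * (Real.log 5 - Real.log 2)
      = finrank F L * (finrank ℚ F * (Real.log 5 - Real.log 2)) := by ring
    _ ≤ finrank F L * (10 * Height.logHeight₁ γ) :=
        mul_le_mul_of_nonneg_left this (Nat.cast_nonneg _)
    _ = 10 * (finrank F L * Height.logHeight₁ γ) := by ring

theorem log_five_halves : Real.log (5 / 2) = Real.log 5 - Real.log 2 :=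
  Real.log_div (by norm_num) (by norm_num)

/-- **Every abelian number field.** -/
theorem height_abelian {K : Type*} [Field K] [NumberField K] [IsAbelianGalois ℚ K] {x : K}
    (hx0 : x ≠ 0) (hroot : ∀ n : ℕ, 0 < n → x ^ n ≠ 1) :
    (finrank ℚ K : ℝ) * (Real.log (5 / 2) / 10) ≤ Height.logHeight₁ x := by
  obtain ⟨N, hN, ⟨f⟩⟩ := FA.Summary.kroneckerWeber_cyclotomicField K
  haveI : NeZero N := ⟨hN.ne'⟩
  haveI : NeZero (N : ℚ) := ⟨Nat.cast_ne_zero.2 hN.ne'⟩
  haveI : IsCyclotomicExtension {N} ℚ (CyclotomicField N ℚ) :=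
    CyclotomicField.isCyclotomicExtension N ℚ
  haveI : NumberField (CyclotomicField N ℚ) := IsCyclotomicExtension.numberField {N} ℚ _
  letI : Algebra K (CyclotomicField N ℚ) := f.toRingHom.toAlgebra
  have hinj : Function.Injective (algebraMap K (CyclotomicField N ℚ)) :=
    (algebraMap K (CyclotomicField N ℚ)).injective
  have h := height_cyclotomic N (CyclotomicField N ℚ) (algebraMap K _ x)
    (fun h => hx0 (hinj (by rw [h, map_zero])))
    fun k hk h => hroot k hk (hinj (by rw [map_pow, h, map_one]))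
  haveI : FiniteDimensional K (CyclotomicField N ℚ) :=
    Module.Finite.of_restrictScalars_finite ℚ K _
  rw [logHeight_map, ← finrank_mul_finrank ℚ K (CyclotomicField N ℚ), Nat.cast_mul] at h
  rw [log_five_halves, ← mul_div_assoc, div_le_iff₀ (by norm_num : (0 : ℝ) < 10)]
  refine le_of_mul_le_mul_left (le_trans (le_of_eq ?_) (h.trans (le_of_eq ?_)))
    (show (0 : ℝ) < (finrank K (CyclotomicField N ℚ) : ℝ) from Nat.cast_pos.2 finrank_pos)
  · ring
  · ring

/-- The compositum of all cyclotomic fields. -/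
def cyclotomicCompositum : IntermediateField ℚ ℂ :=
  adjoin ℚ {z : ℂ | ∃ n : ℕ, 0 < n ∧ z ^ n = 1}

theorem adjoin_roots_mono {M N : ℕ} (h : M ∣ N) :
    adjoin ℚ {z : ℂ | z ^ M = 1} ≤ adjoin ℚ {z : ℂ | z ^ N = 1} := by
  obtain ⟨c, rfl⟩ := h
  refine adjoin.mono ℚ _ _ fun z hz => ?_
  rw [Set.mem_ofPred_eq] at hz ⊢
  rw [pow_mul, hz, one_pow]

theorem exists_root_of_mem {x : ℂ} (hx : x ∈ cyclotomicCompositum) :
    ∃ N : ℕ, 0 < N ∧ x ∈ adjoin ℚ {z : ℂ | z ^ N = 1} := by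
  induction hx using IntermediateField.adjoin_induction with
  | mem z hz =>
    obtain ⟨n, hn, hz⟩ := hz
    exact ⟨n, hn, subset_adjoin _ _ hz⟩
  | algebraMap q => exact ⟨1, one_pos, IntermediateField.algebraMap_mem _ q⟩
  | add u v _ _ hu hv =>
    obtain ⟨M, hM, hu⟩ := hu
    obtain ⟨N, hN, hv⟩ := hv
    exact ⟨M * N, Nat.mul_pos hM hN, add_mem (adjoin_roots_mono (dvd_mul_right M N) hu)
      (adjoin_roots_mono (dvd_mul_left N M) hv)⟩
  | inv u _ hu =>
    obtain ⟨M, hM, hu⟩ := hu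
    exact ⟨M, hM, inv_mem hu⟩
  | mul u v _ _ hu hv =>
    obtain ⟨M, hM, hu⟩ := hu
    obtain ⟨N, hN, hv⟩ := hv
    exact ⟨M * N, Nat.mul_pos hM hN, mul_mem (adjoin_roots_mono (dvd_mul_right M N) hu)
      (adjoin_roots_mono (dvd_mul_left N M) hv)⟩

/-- **The maximal abelian extension.** -/
theorem algHeight_cyclotomicCompositum {x : ℂ} (hx : x ∈ cyclotomicCompositum) (hx0 : x ≠ 0)
    (hroot : ∀ n : ℕ, 0 < n → x ^ n ≠ 1) :
    Real.log (5 / 2) / 10 ≤ BiluTorus.algHeight x := by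
  obtain ⟨N, hN, hxN⟩ := exists_root_of_mem hx
  haveI : NeZero N := ⟨hN.ne'⟩
  haveI : NeZero (N : ℚ) := ⟨Nat.cast_ne_zero.2 hN.ne'⟩
  haveI : IsCyclotomicExtension {N} ℚ (CyclotomicField N ℚ) :=
    CyclotomicField.isCyclotomicExtension N ℚ
  haveI : NumberField (CyclotomicField N ℚ) := IsCyclotomicExtension.numberField {N} ℚ _
  let g : CyclotomicField N ℚ →ₐ[ℚ] ℂ := IsAlgClosed.lift
  have hζ := IsCyclotomicExtension.zeta_spec N ℚ (CyclotomicField N ℚ)
  have hgζ := hζ.map_of_injective g.injective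
  have hxE : x ∈ g.fieldRange := by
    refine adjoin_le_iff.2 (fun z (hz : z ^ N = 1) => ?_) hxN
    obtain ⟨i, -, rfl⟩ := hgζ.eq_pow_of_pow_eq_one hz
    exact ⟨IsCyclotomicExtension.zeta N ℚ (CyclotomicField N ℚ) ^ i, map_pow g _ _⟩
  obtain ⟨a, ha⟩ := hxE
  replace ha : g a = x := ha
  subst ha
  have h := height_cyclotomic N (CyclotomicField N ℚ) a
    (fun h => hx0 (by rw [h]; exact map_zero g)) fun n hn h =>
      hroot n hn (show g a ^ n = 1 by rw [← map_pow, h, map_one])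
  rw [logHeight_eq_algHeight g a] at h
  rw [log_five_halves, div_le_iff₀ (by norm_num : (0 : ℝ) < 10)]
  refine le_of_mul_le_mul_left (h.trans (le_of_eq ?_))
    (show (0 : ℝ) < (finrank ℚ (CyclotomicField N ℚ) : ℝ) from Nat.cast_pos.2 finrank_pos)
  show 10 * ((finrank ℚ (CyclotomicField N ℚ) : ℝ) * BiluTorus.algHeight (g a)) = _
  ring

end FA.AbelianHeight

end
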