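import Fermat.Agent.AbelianHeight.HeightMap
import Fermat.Agent.LocalDegrees.Bound

/-!
# Congruences between powers of conjugates

If `σ z ^ a - z ^ b` is divisible by `p` for every integer `z` then the product formula bounds the
height of a field element from below.
-/

set_option autoImplicit false

noncomputable section

namespace FA.AbelianHeight

open NumberField FA.LocalDegrees

variable {K : Type*} [Field K] [NumberField K] (σ : K ≃ₐ[ℚ] K) {p a b : ℕ}

/-- The local estimate. -/
theorem place_congr_le (ha : a ≠ 0)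
    (hdiv : ∀ z : 𝓞 K, ∃ t : 𝓞 K, σ (z : K) ^ a - (z : K) ^ b = (p : K) * t) (v : FinitePlace K)
    (x : K) :
    v (σ x ^ a - x ^ b) ≤ v (p : K) * (max (v x) 1 ^ b * max (v (σ x)) 1 ^ a) := by
  have hM1 : 1 ≤ max (v x) 1 ^ b := one_le_pow₀ (le_max_right _ _)
  have hM2 : 1 ≤ max (v (σ x)) 1 ^ a := one_le_pow₀ (le_max_right _ _)
  rcases (place_int_le_one v (p : 𝓞 K)).lt_or_eq with hv | hv
  swap
  · rw [show ((p : 𝓞 K) : K) = (p : K) from map_natCast (algebraMap (𝓞 K) K) p] at hv
    rw [hv, one_mul, sub_eq_add_neg]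
    refine (FinitePlace.add_le v _ _).trans (max_le ?_ ?_)
    · rw [map_pow]
      exact (pow_le_pow_left₀ (apply_nonneg v _) (le_max_left _ _) _).trans
        (le_mul_of_one_le_left (by positivity) hM1)
    · rw [FinitePlace.coe_apply, AbsoluteValue.map_neg, ← FinitePlace.coe_apply, map_pow]
      exact (pow_le_pow_left₀ (apply_nonneg v _) (le_max_left _ _) _).trans
        (le_mul_of_one_le_right (by positivity) hM2)
  rw [show ((p : 𝓞 K) : K) = (p : K) from map_natCast (algebraMap (𝓞 K) K) p] at hv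
  have hint : ∀ z : 𝓞 K, v (σ (z : K) ^ a - (z : K) ^ b) ≤ v (p : K) := fun z => by
    obtain ⟨t, ht⟩ := hdiv z
    rw [ht, map_mul]
    exact mul_le_of_le_one_right (apply_nonneg v _) (place_int_le_one v t)
  have hσint : ∀ z : 𝓞 K, v (σ (z : K)) ≤ 1 := fun z =>
    place_int_le_one v (⟨σ (z : K), z.isIntegral_coe.map (σ.toAlgHom.restrictScalars ℤ)⟩ : 𝓞 K)
  have key : ∀ y : K, v y ≤ 1 → v (σ y ^ a - y ^ b) ≤ v (p : K) := by
    intro y hy
    obtain ⟨n, d, hd, hyd⟩ : ∃ n d : 𝓞 K, v (d : K) = 1 ∧ y * (d : K) = (n : K) := by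
      obtain ⟨n, ⟨d, hd⟩, h | h⟩ := v.maximalIdeal.exists_primeCompl_mul_eq_or_mul_eq (K := K) y
      · exact ⟨n, d, place_eq_one v hd, h⟩
      · refine ⟨d, n, le_antisymm (place_int_le_one v n) ?_, h⟩
        rw [← place_eq_one v hd, show (d : K) = y * (n : K) from h.symm, map_mul]
        exact mul_le_of_le_one_left (apply_nonneg v _) hy
    have hd' : v (σ (d : K)) = 1 := by
      refine le_antisymm (hσint d) (not_lt.1 fun hlt => ?_)
      have h := FinitePlace.add_le v (σ (d : K) ^ a) (-(σ (d : K) ^ a - (d : K) ^ b))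
      rw [show σ (d : K) ^ a + -(σ (d : K) ^ a - (d : K) ^ b) = (d : K) ^ b by ring, map_pow, hd,
        one_pow, FinitePlace.coe_apply v (-_), AbsoluteValue.map_neg, ← FinitePlace.coe_apply,
        map_pow] at h
      exact absurd h (not_le.2 (max_lt (pow_lt_one₀ (apply_nonneg v _) hlt ha)
        ((hint d).trans_lt hv)))
    have hσ : σ (n : K) = σ y * σ (d : K) := by rw [← map_mul, hyd]
    have hle : v ((σ y ^ a - y ^ b) * (σ (d : K) ^ a * (d : K) ^ b)) ≤ v (p : K) := by
      rw [show (σ y ^ a - y ^ b) * (σ (d : K) ^ a * (d : K) ^ b) =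
        (σ (n : K) ^ a - (n : K) ^ b) * (d : K) ^ b +
          -((n : K) ^ b * (σ (d : K) ^ a - (d : K) ^ b)) by
        rw [hσ, ← hyd, mul_pow, mul_pow]; ring]
      refine (FinitePlace.add_le v _ _).trans (max_le ?_ ?_)
      · rw [map_mul, map_pow, hd, one_pow, mul_one]
        exact hint n
      · rw [FinitePlace.coe_apply, AbsoluteValue.map_neg, ← FinitePlace.coe_apply, map_mul, map_pow]
        exact (mul_le_of_le_one_left (apply_nonneg v _)
          (pow_le_one₀ (apply_nonneg v _) (place_int_le_one v n))).trans (hint d)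
    rwa [map_mul, map_mul, map_pow, map_pow, hd, hd', one_pow, one_pow, mul_one, mul_one] at hle
  rcases le_or_gt (v x) 1 with hx | hx
  · exact (key x hx).trans (le_mul_of_one_le_right (apply_nonneg v _)
      (one_le_mul_of_one_le_of_one_le hM1 hM2))
  · have hx0 : x ≠ 0 := by rintro rfl; rw [map_zero] at hx; exact absurd hx (by norm_num)
    have hσ0 : σ x ≠ 0 := by simpa using hx0
    have h := key x⁻¹ (by rw [map_inv₀]; exact inv_le_one_of_one_le₀ hx.le)
    have e : σ x ^ a - x ^ b = -((σ x⁻¹ ^ a - x⁻¹ ^ b) * (x ^ b * σ x ^ a)) := by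
      rw [map_inv₀ σ, inv_pow, inv_pow]
      field_simp
      ring
    rw [e, FinitePlace.coe_apply, AbsoluteValue.map_neg, ← FinitePlace.coe_apply, map_mul, map_mul,
      map_pow, map_pow]
    exact mul_le_mul h (mul_le_mul (pow_le_pow_left₀ (apply_nonneg v _) (le_max_left _ _) _)
      (pow_le_pow_left₀ (apply_nonneg v _) (le_max_left _ _) _) (pow_nonneg (apply_nonneg v _) _)
      (le_trans zero_le_one hM1)) (mul_nonneg (pow_nonneg (apply_nonneg v _) _)
      (pow_nonneg (apply_nonneg v _) _)) (apply_nonneg v _)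

/-- **The height inequality.** -/
theorem pow_le_mulHeight_congr (hp : 0 < p) (ha : a ≠ 0)
    (hdiv : ∀ z : 𝓞 K, ∃ t : 𝓞 K, σ (z : K) ^ a - (z : K) ^ b = (p : K) * t) {x : K}
    (hne : σ x ^ a ≠ x ^ b) :
    (p : ℝ) ^ Module.finrank ℚ K ≤ 2 ^ Module.finrank ℚ K *
      (Height.mulHeight₁ x ^ b * Height.mulHeight₁ (σ x) ^ a) := by
  classical
  set D := Module.finrank ℚ K
  have hδ : σ x ^ a - x ^ b ≠ 0 := sub_ne_zero.2 hne
  have hp0 : (p : K) ≠ 0 := Nat.cast_ne_zero.2 hp.ne'
  have hfin : ∀ y : K, (Function.mulSupport fun v : FinitePlace K => max (v y) 1).Finite := by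
    intro y
    rcases eq_or_ne y 0 with rfl | hy
    · simp
    · refine (FinitePlace.hasFiniteMulSupport hy).subset fun v hv h1 => ?_
      exact hv (by simp [show v y = 1 from h1])
  obtain ⟨T, hT1, hT2, hT3, hT4⟩ : ∃ T : Finset (FinitePlace K),
      (Function.mulSupport fun v : FinitePlace K => v (σ x ^ a - x ^ b)) ⊆ T ∧
      (Function.mulSupport fun v : FinitePlace K => v (p : K)) ⊆ T ∧
      (Function.mulSupport fun v : FinitePlace K => max (v x) 1) ⊆ T ∧
      (Function.mulSupport fun v : FinitePlace K => max (v (σ x)) 1) ⊆ T := by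
    refine ⟨((FinitePlace.hasFiniteMulSupport hδ).union
      ((FinitePlace.hasFiniteMulSupport hp0).union ((hfin x).union (hfin (σ x))))).toFinset,
      ?_, ?_, ?_, ?_⟩ <;> rw [Set.Finite.coe_toFinset] <;> intro v hv
    exacts [Or.inl hv, Or.inr (Or.inl hv), Or.inr (Or.inr (Or.inl hv)),
      Or.inr (Or.inr (Or.inr hv))]
  have hpr := prod_abs_eq_one hδ
  have hpr2 := prod_abs_eq_one hp0
  rw [finprod_eq_prod_of_mulSupport_subset _ hT1] at hpr
  rw [finprod_eq_prod_of_mulSupport_subset _ hT2] at hpr2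
  rw [mulHeight₁_eq, mulHeight₁_eq, finprod_eq_prod_of_mulSupport_subset _ hT3,
    finprod_eq_prod_of_mulSupport_subset _ hT4, mul_pow, mul_pow]
  have hD : ∑ w : InfinitePlace K, w.mult = D := InfinitePlace.sum_mult_eq
  have hinfp : ∏ w : InfinitePlace K, w (p : K) ^ w.mult = (p : ℝ) ^ D := by
    rw [← hD, ← Finset.prod_pow_eq_pow_sum]
    exact Finset.prod_congr rfl fun w _ => by
      rw [← InfinitePlace.norm_embedding_eq, map_natCast, Complex.norm_natCast]
  rw [hinfp] at hpr2
  have hi : ∏ w : InfinitePlace K, w (σ x ^ a - x ^ b) ^ w.mult ≤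
      2 ^ D * ((∏ w : InfinitePlace K, max (w x) 1 ^ w.mult) ^ b *
        (∏ w : InfinitePlace K, max (w (σ x)) 1 ^ w.mult) ^ a) := by
    rw [← hD, ← Finset.prod_pow_eq_pow_sum, ← Finset.prod_pow, ← Finset.prod_pow,
      ← Finset.prod_mul_distrib, ← Finset.prod_mul_distrib]
    refine Finset.prod_le_prod (fun w _ => pow_nonneg (apply_nonneg w _) _) fun w _ => ?_
    rw [pow_right_comm (max (w x) 1), pow_right_comm (max (w (σ x)) 1), ← mul_pow, ← mul_pow]
    refine pow_le_pow_left₀ (apply_nonneg w _) ?_ _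
    have hM : 1 ≤ max (w x) 1 ^ b := one_le_pow₀ (le_max_right _ _)
    have hN : 1 ≤ max (w (σ x)) 1 ^ a := one_le_pow₀ (le_max_right _ _)
    rw [← InfinitePlace.norm_embedding_eq, map_sub, map_pow, map_pow, two_mul]
    refine (norm_sub_le _ _).trans (add_le_add ?_ ?_) <;>
      rw [norm_pow, InfinitePlace.norm_embedding_eq]
    · exact (pow_le_pow_left₀ (apply_nonneg w _) (le_max_left _ _) _).trans
        (le_mul_of_one_le_left (by positivity) hM)
    · exact (pow_le_pow_left₀ (apply_nonneg w _) (le_max_left _ _) _).trans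
        (le_mul_of_one_le_right (by positivity) hN)
  have hf : ∏ v ∈ T, v (σ x ^ a - x ^ b) ≤ (∏ v ∈ T, v (p : K)) *
      ((∏ v ∈ T, max (v x) 1) ^ b * (∏ v ∈ T, max (v (σ x)) 1) ^ a) := by
    rw [← Finset.prod_pow, ← Finset.prod_pow, ← Finset.prod_mul_distrib, ← Finset.prod_mul_distrib]
    exact Finset.prod_le_prod (fun v _ => apply_nonneg v _) fun v _ =>
      place_congr_le σ ha hdiv v x
  have hmain := mul_le_mul hi hf (Finset.prod_nonneg fun v _ => apply_nonneg v _) (by positivity)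
  rw [hpr] at hmain
  calc (p : ℝ) ^ D = (p : ℝ) ^ D * 1 := (mul_one _).symm
    _ ≤ _ := mul_le_mul_of_nonneg_left hmain (by positivity)
    _ = ((p : ℝ) ^ D * ∏ v ∈ T, v (p : K)) *
        (2 ^ D * ((∏ w : InfinitePlace K, max (w x) 1 ^ w.mult) ^ b * (∏ v ∈ T, max (v x) 1) ^ b *
          ((∏ w : InfinitePlace K, max (w (σ x)) 1 ^ w.mult) ^ a *
            (∏ v ∈ T, max (v (σ x)) 1) ^ a))) := by ring
    _ = _ := by rw [hpr2, one_mul]

/-- The inequality for the logarithmic height. -/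
theorem log_le_logHeight_congr (hp : 0 < p) (ha : a ≠ 0)
    (hdiv : ∀ z : 𝓞 K, ∃ t : 𝓞 K, σ (z : K) ^ a - (z : K) ^ b = (p : K) * t) {x : K}
    (hne : σ x ^ a ≠ x ^ b) :
    (Module.finrank ℚ K : ℝ) * (Real.log p - Real.log 2) ≤
      ((a : ℝ) + b) * Height.logHeight₁ x := by
  have hpp : (0 : ℝ) < p := by exact_mod_cast hp
  have h := Real.log_le_log (by positivity) (pow_le_mulHeight_congr σ hp ha hdiv hne)
  rw [Real.log_mul (pow_ne_zero _ two_ne_zero)
      (mul_ne_zero (pow_ne_zero _ (Height.mulHeight₁_pos _).ne')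
        (pow_ne_zero _ (Height.mulHeight₁_pos _).ne')),
    Real.log_mul (pow_ne_zero _ (Height.mulHeight₁_pos _).ne')
      (pow_ne_zero _ (Height.mulHeight₁_pos _).ne'),
    Real.log_pow, Real.log_pow, Real.log_pow, Real.log_pow,
    ← Height.logHeight₁_eq_log_mulHeight₁, ← Height.logHeight₁_eq_log_mulHeight₁,
    logHeight_equiv σ x] at h
  linarith

/-- Roots of unity do not change the height. -/
theorem logHeight_mul_root {w : K} {n : ℕ} (hn : 0 < n) (hw : w ^ n = 1) (x : K) :
    Height.logHeight₁ (x * w) = Height.logHeight₁ x := by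
  have hz : ∀ u : K, u ^ n = 1 → Height.logHeight₁ u = 0 := fun u hu => by
    have h := Height.logHeight₁_pow u n
    rw [hu, Height.logHeight₁_one] at h
    exact (mul_eq_zero.1 h.symm).resolve_left (Nat.cast_ne_zero.2 hn.ne')
  have hw0 : w ≠ 0 := fun h => by
    rw [h, zero_pow hn.ne'] at hw
    exact zero_ne_one hw
  refine le_antisymm ?_ ?_
  · have h := Height.logHeight₁_mul_le x w
    rw [hz w hw, add_zero] at h
    exact h
  · have h := Height.logHeight₁_mul_le (x * w) w⁻¹
    rwa [mul_inv_cancel_right₀ hw0, hz w⁻¹ (by rw [inv_pow, hw, inv_one]), add_zero] at h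

end FA.AbelianHeight

end
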