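import Fermat.Agent.BiluTorus.Points
import Fermat.Agent.AbelianHeight.Abelian
import Fermat.Agent.LocalDegrees.Main
import Mathlib.LinearAlgebra.FreeModule.PID
import Mathlib.GroupTheory.Torsion
import Mathlib.Algebra.AlgebraicCard

/-!
# Multiplicative groups with the Bogomolov property

Pontryagin's criterion shows that a countable abelian group with a subadditive homogeneous function
bounded below by a positive constant away from zero is free.  The absolute height is such a function
on the multiplicative group modulo roots of unity of an algebraic field with the Bogomolov property.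
-/

set_option autoImplicit false
set_option linter.style.haveILetI false

noncomputable section

namespace FA.AbelianHeight

section Free

variable {M : Type*} [AddCommGroup M] [Module.IsTorsionFree ℤ M]

/-- The saturation of a subgroup. -/
def sat (S : Submodule ℤ M) : Submodule ℤ M := (Submodule.torsion ℤ (M ⧸ S)).comap S.mkQ

omit [Module.IsTorsionFree ℤ M] in
theorem mem_sat {S : Submodule ℤ M} {m : M} : m ∈ sat S ↔ ∃ n : ℤ, n ≠ 0 ∧ n • m ∈ S := by
  simp only [sat, Submodule.mem_comap, Submodule.mem_torsion_iff, Submodule.mkQ_apply]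
  exact ⟨fun ⟨a, ha⟩ => ⟨a, nonZeroDivisors.coe_ne_zero a, (Submodule.Quotient.mk_eq_zero S).mp ha⟩,
    fun ⟨n, hn, hm⟩ => ⟨⟨n, mem_nonZeroDivisors_of_ne_zero hn⟩,
      (Submodule.Quotient.mk_eq_zero S).mpr hm⟩⟩

/-- A subgroup sent by a nonzero integer into a finitely generated one is finitely generated. -/
theorem fg_of_smul_mem {S N : Submodule ℤ M} {d : ℤ} (hd : d ≠ 0) (hN : N.FG)
    (h : ∀ m ∈ S, d • m ∈ N) : S.FG := by
  haveI : Module.Finite ℤ N := Module.Finite.iff_fg.mpr hN
  let g : S →ₗ[ℤ] N := LinearMap.codRestrict N (d • S.subtype) fun m => h m.1 m.2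
  refine Module.Finite.iff_fg.mp (Module.Finite.of_injective g
    ((injective_iff_map_eq_zero g).mpr fun x hx => Subtype.ext ?_))
  exact (smul_eq_zero.mp (congrArg Subtype.val hx :)).resolve_left hd

omit [Module.IsTorsionFree ℤ M] in
/-- A basis of a saturated subgroup extends to one of a finitely generated subgroup
containing it. -/
theorem exists_extension {V V' : Submodule ℤ M} (hle : V ≤ V') (hV' : V'.FG)
    (hsat : ∀ (n : ℤ) (m : M), n ≠ 0 → n • m ∈ V → m ∈ V) {B : Set M}
    (hB : LinearIndepOn ℤ id B) (hspan : Submodule.span ℤ B = V) :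
    ∃ B' : Set M, B ⊆ B' ∧ LinearIndepOn ℤ id B' ∧ Submodule.span ℤ B' = V' := by
  haveI : Module.Finite ℤ V' := Module.Finite.iff_fg.mpr hV'
  set V₁ : Submodule ℤ V' := V.comap V'.subtype
  haveI : Module.IsTorsionFree ℤ (V' ⧸ V₁) := Module.IsTorsionFree.of_smul_eq_zero fun n z h => by
    obtain ⟨m, rfl⟩ := V₁.mkQ_surjective z
    rw [← map_smul, Submodule.mkQ_apply, Submodule.Quotient.mk_eq_zero] at h
    by_cases hn : n = 0
    · exact Or.inl hn
    · exact Or.inr ((Submodule.Quotient.mk_eq_zero V₁).mpr (hsat n m.1 hn h))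
  let b := Module.Free.chooseBasis ℤ (V' ⧸ V₁)
  choose c hc using fun i => V₁.mkQ_surjective (b i)
  set t : Set M := Set.range fun i => (c i : M)
  let g : (V' ⧸ V₁) →ₗ[ℤ] M ⧸ V := V₁.mapQ V V'.subtype le_rfl
  have hg : LinearMap.ker g = ⊥ := by
    rw [Submodule.eq_bot_iff]
    intro z hz
    obtain ⟨m, rfl⟩ := V₁.mkQ_surjective z
    rw [LinearMap.mem_ker, Submodule.mkQ_apply, Submodule.mapQ_apply,
      Submodule.Quotient.mk_eq_zero] at hz
    exact (Submodule.Quotient.mk_eq_zero V₁).mpr hz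
  have hinj : Function.Injective fun i => (c i : M) := fun i j e =>
    b.injective (by rw [← hc i, ← hc j, Subtype.ext e])
  have ht : LinearIndepOn ℤ V.mkQ t := by
    refine (linearIndepOn_range_iff hinj _).mpr ?_
    have e : (V.mkQ ∘ fun i => (c i : M)) = g ∘ b := funext fun i => by
      rw [Function.comp_apply, Function.comp_apply, ← hc i]
      rfl
    rw [e]
    exact b.linearIndependent.map' g hg
  refine ⟨B ∪ t, Set.subset_union_left,
    LinearIndepOn.union_id_of_quotient (hspan ▸ Submodule.subset_span) hB ht,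
    le_antisymm (Submodule.span_le.mpr (Set.union_subset
      (fun x hx => hle (hspan ▸ Submodule.subset_span hx))
      (by rintro _ ⟨i, rfl⟩; exact (c i).2))) fun m hm => ?_⟩
  rw [Submodule.span_union, hspan]
  set z : V' := (b.repr (V₁.mkQ ⟨m, hm⟩)).sum fun i a => a • c i
  have hz : V₁.mkQ z = V₁.mkQ ⟨m, hm⟩ := by
    conv_rhs => rw [← b.linearCombination_repr (V₁.mkQ ⟨m, hm⟩)]
    simp only [z, Finsupp.linearCombination_apply, map_finsuppSum, map_smul, hc]
  rw [Submodule.mkQ_apply, Submodule.mkQ_apply, Submodule.Quotient.eq] at hz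
  refine Submodule.mem_sup.mpr ⟨-((z : M) - m), V.neg_mem hz, z, ?_, by abel⟩
  rw [show (z : M) = V'.subtype z from rfl, map_finsuppSum]
  exact Submodule.sum_mem _ fun i _ => by
    dsimp only
    rw [map_smul]
    exact Submodule.smul_mem _ _ (Submodule.subset_span ⟨i, rfl⟩)

/-- **Pontryagin's criterion**: a countable torsion-free abelian group in which finitely generated
subgroups have finitely generated saturations is free. -/
theorem free_of_sat_fg [Countable M] (h : ∀ S : Submodule ℤ M, S.FG → (sat S).FG) :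
    Module.Free ℤ M := by
  obtain ⟨e, he⟩ := exists_surjective_nat M
  let V : ℕ → Submodule ℤ M := fun n => sat (Submodule.span ℤ (e '' Set.Iio n))
  have hVfg : ∀ n, (V n).FG := fun n =>
    h _ (Submodule.fg_span ((Set.finite_Iio n).image e))
  have hVmono : ∀ n, V n ≤ V (n + 1) := fun n m hm => by
    obtain ⟨k, hk, hkm⟩ := mem_sat.mp hm
    exact mem_sat.mpr ⟨k, hk,
      Submodule.span_mono (Set.image_mono (Set.Iio_subset_Iio n.le_succ)) hkm⟩
  have hVsat : ∀ (n : ℕ) (k : ℤ) (m : M), k ≠ 0 → k • m ∈ V n → m ∈ V n := fun n k m hk hm => by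
    obtain ⟨l, hl, hlm⟩ := mem_sat.mp hm
    exact mem_sat.mpr ⟨l * k, mul_ne_zero hl hk, by rwa [mul_smul]⟩
  have hV0 : V 0 = ⊥ := (Submodule.eq_bot_iff _).mpr fun m hm => by
    obtain ⟨k, hk, hkm⟩ := mem_sat.mp hm
    rw [show Set.Iio (0 : ℕ) = ∅ from Set.Iio_bot, Set.image_empty, Submodule.span_empty,
      Submodule.mem_bot] at hkm
    exact (smul_eq_zero.mp hkm).resolve_left hk
  have step : ∀ n, ∀ B : {B : Set M // LinearIndepOn ℤ id B ∧ Submodule.span ℤ B = V n},
      ∃ B' : {B : Set M // LinearIndepOn ℤ id B ∧ Submodule.span ℤ B = V (n + 1)},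
        B.1 ⊆ B'.1 := fun n B => by
    obtain ⟨B', h1, h2, h3⟩ :=
      exists_extension (hVmono n) (hVfg (n + 1)) (hVsat n) B.2.1 B.2.2
    exact ⟨⟨B', h2, h3⟩, h1⟩
  choose next hnext using step
  let B : ∀ n, {B : Set M // LinearIndepOn ℤ id B ∧ Submodule.span ℤ B = V n} :=
    fun n => Nat.rec ⟨∅, linearIndepOn_empty _ _, by rw [Submodule.span_empty, hV0]⟩ next n
  have hmono : Monotone fun n => (B n).1 := monotone_nat_of_le_succ fun n => hnext n (B n)
  have hind : LinearIndepOn ℤ id (⋃ n, (B n).1) :=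
    linearIndepOn_iUnion_of_directed hmono.directed_le fun n => (B n).2.1
  refine Module.Free.of_basis (Module.Basis.mk hind.linearIndependent fun m _ => ?_)
  obtain ⟨n, rfl⟩ := he m
  rw [show (Set.range fun x : ⋃ n, (B n).1 => id x.1) = ⋃ n, (B n).1 from Subtype.range_coe]
  refine Submodule.span_mono (Set.subset_iUnion (fun n => (B n).1) (n + 1)) ?_
  rw [(B (n + 1)).2.2]
  exact mem_sat.mpr ⟨1, one_ne_zero,
    by rw [one_smul]; exact Submodule.subset_span ⟨n, Nat.lt_succ_self n, rfl⟩⟩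

end Free

/-- A group with a norm bounded below away from zero has no torsion. -/
theorem isTorsionFree_of_norm {M : Type*} [AddCommGroup M] (H : M → ℝ) {c : ℝ} (hc : 0 < c)
    (hsmul : ∀ (k : ℤ) (m : M), H (k • m) = |(k : ℝ)| * H m) (hlow : ∀ m, m ≠ 0 → c ≤ H m) :
    Module.IsTorsionFree ℤ M := by
  refine Module.IsTorsionFree.of_smul_eq_zero fun k m h => ?_
  by_contra hne
  push Not at hne
  have h0 : H (0 : M) = 0 := by simpa using hsmul 0 m
  have h1 := hsmul k m
  rw [h, h0, eq_comm, mul_eq_zero] at h1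
  rcases h1 with h1 | h1
  · exact hne.1 (by exact_mod_cast abs_eq_zero.1 h1)
  · exact (hc.trans_le (hlow m hne.2)).ne' h1

/-- The saturation of a finitely generated subgroup is finitely generated. -/
theorem sat_fg_of_norm {M : Type*} [AddCommGroup M] (H : M → ℝ) {c : ℝ} (hc : 0 < c)
    (hadd : ∀ m n, H (m + n) ≤ H m + H n) (hsmul : ∀ (k : ℤ) (m : M), H (k • m) = |(k : ℝ)| * H m)
    (hlow : ∀ m, m ≠ 0 → c ≤ H m) (S : Submodule ℤ M) (hS : S.FG) : (sat S).FG := by
  classical
  obtain ⟨s, rfl⟩ := hS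
  have h0 : H (0 : M) = 0 := by simpa using hsmul 0 0
  have hnn : ∀ m, 0 ≤ H m := fun m => by
    rcases eq_or_ne m 0 with rfl | hm
    · exact h0.ge
    · exact hc.le.trans (hlow m hm)
  have hsum : ∀ f : M → M, H (∑ i ∈ s, f i) ≤ ∑ i ∈ s, H (f i) := fun f =>
    Finset.le_sum_of_subadditive H h0.le hadd s f
  obtain ⟨N, hN⟩ := exists_nat_gt ((∑ i ∈ s, H i) / c)
  have hN0 : (0 : ℝ) < N := lt_of_le_of_lt (div_nonneg (Finset.sum_nonneg fun i _ => hnn i) hc.le) hN
  rw [div_lt_iff₀ hc] at hN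
  let R : Set M := {m | ∃ (n : ℕ) (a : M → ℕ), 0 < n ∧ (∀ i ∈ s, a i < n) ∧
    (n : ℤ) • m = ∑ i ∈ s, (a i : ℤ) • i}
  have hsep : ∀ (n n' : ℕ) (a a' : M → ℕ) (m m' : M), 0 < n → 0 < n' →
      (n : ℤ) • m = ∑ i ∈ s, (a i : ℤ) • i → (n' : ℤ) • m' = ∑ i ∈ s, (a' i : ℤ) • i →
      (∀ i ∈ s, a i * N / n = a' i * N / n') → m = m' := by
    intro n n' a a' m m' hn hn' hm hm' hkey
    by_contra hne
    have hd : ∀ i ∈ s, |(((n' : ℤ) * a i - (n : ℤ) * a' i : ℤ) : ℝ)| * N ≤ (n : ℝ) * n' := by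
      intro i hi
      have h1 := Nat.div_add_mod (a i * N) n
      have h2 := Nat.div_add_mod (a' i * N) n'
      have h3 := Nat.mod_lt (a i * N) hn
      have h4 := Nat.mod_lt (a' i * N) hn'
      rw [hkey i hi] at h1
      set q := a' i * N / n'
      set u := a i * N % n
      set u' := a' i * N % n'
      have e1 : (n : ℝ) * q + u = a i * N := by exact_mod_cast h1
      have e2 : (n' : ℝ) * q + u' = a' i * N := by exact_mod_cast h2
      have e3 : (u : ℝ) ≤ n := by exact_mod_cast h3.le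
      have e4 : (u' : ℝ) ≤ n' := by exact_mod_cast h4.le
      push_cast
      rw [← abs_of_pos hN0, ← abs_mul, abs_le]
      constructor <;>
        nlinarith [mul_le_mul_of_nonneg_left e3 (Nat.cast_nonneg (α := ℝ) n'),
          mul_le_mul_of_nonneg_left e4 (Nat.cast_nonneg (α := ℝ) n),
          mul_nonneg (Nat.cast_nonneg (α := ℝ) u) (Nat.cast_nonneg (α := ℝ) n'),
          mul_nonneg (Nat.cast_nonneg (α := ℝ) u') (Nat.cast_nonneg (α := ℝ) n)]
    have h1 : ((n : ℤ) * n') • (m - m') = ∑ i ∈ s, ((n' : ℤ) * a i - (n : ℤ) * a' i) • i := by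
      rw [smul_sub, mul_comm, mul_smul, hm, mul_comm, mul_smul, hm', Finset.smul_sum,
        Finset.smul_sum, ← Finset.sum_sub_distrib]
      exact Finset.sum_congr rfl fun i _ => by rw [sub_smul, mul_smul, mul_smul]
    have h2 := hsum fun i => ((n' : ℤ) * a i - (n : ℤ) * a' i) • i
    rw [← h1, hsmul] at h2
    simp only [hsmul] at h2
    push_cast at h2
    rw [abs_mul, Nat.abs_cast, Nat.abs_cast] at h2
    have h3 : (∑ i ∈ s, |((n' : ℝ) * a i - (n : ℝ) * a' i)| * H i) * N ≤
        (n : ℝ) * n' * ∑ i ∈ s, H i := by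
      rw [Finset.sum_mul, Finset.mul_sum]
      refine Finset.sum_le_sum fun i hi => ?_
      have := hd i hi
      push_cast at this
      calc _ = |((n' : ℝ) * a i - (n : ℝ) * a' i)| * N * H i := by ring
        _ ≤ _ := mul_le_mul_of_nonneg_right this (hnn i)
    have hnn' : (0 : ℝ) < (n : ℝ) * n' := by positivity
    have h4 := mul_le_mul_of_nonneg_left (hlow _ (sub_ne_zero.2 hne)) hnn'.le
    have h5 : (n : ℝ) * n' * (c * N) ≤ (n : ℝ) * n' * ∑ i ∈ s, H i := by
      rw [← mul_assoc]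
      exact (mul_le_mul_of_nonneg_right (h4.trans h2) hN0.le).trans h3
    exact absurd (le_of_mul_le_mul_left h5 hnn') (not_le.2 (mul_comm (N : ℝ) c ▸ hN))
  have hRfin : R.Finite := by
    choose n a hn ha hm using fun m : R => m.2
    have hlt : ∀ (m : R) (i : s), a m i * N / n m < N := fun m i => by
      rw [Nat.div_lt_iff_lt_mul (hn m), mul_comm N]
      exact mul_lt_mul_of_pos_right (ha m i i.2) (by exact_mod_cast hN0)
    refine Finite.of_injective (fun (m : R) (i : s) => (⟨_, hlt m i⟩ : Fin N)) fun m m' h => ?_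
    exact Subtype.ext (hsep _ _ _ _ _ _ (hn m) (hn m') (hm m) (hm m') fun i hi =>
      congrArg Fin.val (congrFun h ⟨i, hi⟩))
  suffices h : sat (Submodule.span ℤ (s : Set M)) = Submodule.span ℤ ((s : Set M) ∪ R) from
    h ▸ Submodule.fg_span (s.finite_toSet.union hRfin)
  refine le_antisymm ?_ (Submodule.span_le.2 ?_)
  rotate_left
  · intro m hm
    rcases hm with hm | ⟨n, a, hn, -, hm⟩
    · exact mem_sat.2 ⟨1, one_ne_zero, by rw [one_smul]; exact Submodule.subset_span hm⟩
    · exact mem_sat.2 ⟨n, by exact_mod_cast hn.ne', hm ▸ Submodule.sum_mem _ fun i hi =>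
        Submodule.smul_mem _ _ (Submodule.subset_span hi)⟩
  · intro m hm
    obtain ⟨k, hk, hkm⟩ := mem_sat.1 hm
    obtain ⟨n, hn, hnm⟩ : ∃ n : ℕ, 0 < n ∧ (n : ℤ) • m ∈ Submodule.span ℤ (s : Set M) := by
      refine ⟨k.natAbs, Int.natAbs_pos.2 hk, ?_⟩
      rcases Int.natAbs_eq k with e | e
      · rwa [← e]
      · rw [show (k.natAbs : ℤ) = -k by omega, neg_smul]
        exact neg_mem hkm
    obtain ⟨f, hf⟩ := Submodule.mem_span_finset'.1 hnm
    have hnz : (n : ℤ) ≠ 0 := by exact_mod_cast hn.ne'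
    obtain ⟨g, hg⟩ : ∃ g : M → ℤ, ∑ i ∈ s, g i • i = (n : ℤ) • m :=
      ⟨fun i => if h : i ∈ s then f ⟨i, h⟩ else 0, by
        rw [← hf, ← Finset.sum_coe_sort]
        exact Finset.sum_congr rfl fun i _ => by simp [i.2]⟩
    have hr : m - ∑ i ∈ s, (g i / n) • i ∈ R := by
      refine ⟨n, fun i => (g i % n).toNat, hn, fun i _ => ?_, ?_⟩
      · have := Int.emod_lt_of_pos (g i) (Int.natCast_pos.2 hn)
        have := Int.emod_nonneg (g i) hnz
        show (g i % (n : ℤ)).toNat < n
        omega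
      · rw [smul_sub, ← hg, Finset.smul_sum, ← Finset.sum_sub_distrib]
        refine Finset.sum_congr rfl fun i _ => ?_
        rw [Int.toNat_of_nonneg (Int.emod_nonneg (g i) hnz), ← mul_smul, ← sub_smul,
          Int.emod_def]
    rw [show m = (m - ∑ i ∈ s, (g i / n) • i) + ∑ i ∈ s, (g i / n) • i by abel]
    exact Submodule.add_mem _ (Submodule.subset_span (Or.inr hr))
      (Submodule.sum_mem _ fun i hi => Submodule.smul_mem _ _
        (Submodule.subset_span (Or.inl hi)))

/-- **A discretely normed countable abelian group is free.** -/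
theorem free_of_norm {M : Type*} [AddCommGroup M] [Countable M] (H : M → ℝ) {c : ℝ} (hc : 0 < c)
    (hadd : ∀ m n, H (m + n) ≤ H m + H n) (hsmul : ∀ (k : ℤ) (m : M), H (k • m) = |(k : ℝ)| * H m)
    (hlow : ∀ m, m ≠ 0 → c ≤ H m) : Module.Free ℤ M :=
  haveI := isTorsionFree_of_norm H hc hsmul hlow
  free_of_sat_fg (sat_fg_of_norm H hc hadd hsmul hlow)

/-- An algebraic field inside `ℂ` is countable. -/
theorem countable_of_isAlgebraic (K : IntermediateField ℚ ℂ) (hK : ∀ x ∈ K, IsAlgebraic ℚ x) :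
    Countable K :=
  Set.Countable.to_subtype ((Algebraic.countable ℚ ℂ).mono fun x hx => hK x hx)

/-- **The multiplicative group modulo roots of unity is free under the Bogomolov property.** -/
theorem free_units_mod_torsion (K : IntermediateField ℚ ℂ) (hK0 : ∀ x ∈ K, IsAlgebraic ℚ x) {c : ℝ}
    (hc : 0 < c) (hK : ∀ x ∈ K, x ≠ 0 → (∀ n : ℕ, 0 < n → x ^ n ≠ 1) →
      c ≤ BiluTorus.algHeight x) :
    Module.Free ℤ (Additive (Kˣ ⧸ CommGroup.torsion Kˣ)) := by
  classical
  haveI := countable_of_isAlgebraic K hK0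
  haveI : Countable Kˣ := Units.val_injective.countable
  haveI : Countable (Kˣ ⧸ CommGroup.torsion Kˣ) := Quotient.countable
  haveI : Countable (Additive (Kˣ ⧸ CommGroup.torsion Kˣ)) :=
    inferInstanceAs (Countable (Kˣ ⧸ CommGroup.torsion Kˣ))
  have halg : ∀ x : K, IsAlgebraic ℚ (x : ℂ) := fun x => hK0 x x.2
  have hroot : ∀ u : Kˣ, u ∈ CommGroup.torsion Kˣ →
      BiluTorus.algHeight ((u : K) : ℂ) = 0 := fun u hu => by
    obtain ⟨n, hn, hun⟩ := isOfFinOrder_iff_pow_eq_one.1 hu
    refine BiluTorus.algHeight_eq_zero_of_pow_eq_one hn ?_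
    rw [← SubmonoidClass.coe_pow, ← Units.val_pow_eq_pow_val, hun]
    rfl
  have hwd : ∀ u v : Kˣ, (u : Kˣ ⧸ CommGroup.torsion Kˣ) = v →
      BiluTorus.algHeight ((u : K) : ℂ) = BiluTorus.algHeight ((v : K) : ℂ) := by
    have key : ∀ u w : Kˣ, w ∈ CommGroup.torsion Kˣ →
        BiluTorus.algHeight (((u * w : Kˣ) : K) : ℂ) ≤ BiluTorus.algHeight ((u : K) : ℂ) :=
      fun u w hw => by
        refine (BiluTorus.algHeight_mul_le (halg u) (halg w)).trans (le_of_eq ?_)
        rw [hroot w hw, add_zero]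
    intro u v h
    rw [QuotientGroup.eq] at h
    refine le_antisymm ?_ ?_
    · have h1 := key v (u⁻¹ * v)⁻¹ (inv_mem h)
      rwa [show v * (u⁻¹ * v)⁻¹ = u by group] at h1
    · have h1 := key u (u⁻¹ * v) h
      rwa [mul_inv_cancel_left] at h1
  choose rep hrep using fun m : Kˣ ⧸ CommGroup.torsion Kˣ => QuotientGroup.mk_surjective m
  refine free_of_norm (fun m => BiluTorus.algHeight ((rep m.toMul : K) : ℂ)) hc ?_ ?_ ?_
  · intro m n
    rw [hwd (rep (m + n).toMul) (rep m.toMul * rep n.toMul)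
      (by rw [hrep, QuotientGroup.mk_mul, hrep, hrep]; rfl)]
    exact BiluTorus.algHeight_mul_le (halg _) (halg _)
  · intro k m
    rw [hwd (rep (k • m).toMul) (rep m.toMul ^ k)
      (by rw [hrep, QuotientGroup.mk_zpow, hrep]; rfl),
      Units.val_zpow_eq_zpow_val,
      show (((rep m.toMul : K) ^ k : K) : ℂ) = ((rep m.toMul : K) : ℂ) ^ k from
        map_zpow₀ K.val _ k,
      BiluTorus.algHeight_zpow (halg _), Nat.cast_natAbs, Int.cast_abs]
  · intro m hm
    refine hK _ (rep m.toMul : K).2 (fun h => (rep m.toMul).ne_zero (Subtype.ext h))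
      fun n hn h => hm ?_
    have hu : rep m.toMul ∈ CommGroup.torsion Kˣ :=
      isOfFinOrder_iff_pow_eq_one.2 ⟨n, hn, Units.ext (Subtype.ext h)⟩
    have h1 := hrep m.toMul
    rw [(QuotientGroup.eq_one_iff _).2 hu] at h1
    exact Additive.toMul.injective h1.symm

end FA.AbelianHeight

end
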