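import Fermat.Agent.BiluTorus.Height
import Mathlib.NumberTheory.Height.NumberField
import Mathlib.RingTheory.Ideal.Norm.RelNorm

/-!
# The height in an extension of number fields

The height of a number field, which is not normalised, is multiplied by the degree in an extension.
Hence it is invariant under field isomorphisms and is `[K : ℚ]` times the absolute height.
-/

set_option autoImplicit false
set_option linter.style.haveILetI false

noncomputable section

namespace FA.AbelianHeight

open NumberField Module Polynomial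

variable {K : Type*} [Field K] [NumberField K]

/-- A product over the infinite places with multiplicities is a product over the embeddings. -/
theorem prod_infinitePlace_pow_mult (F : InfinitePlace K → ℝ) :
    ∏ w : InfinitePlace K, F w ^ w.mult = ∏ φ : K →+* ℂ, F (InfinitePlace.mk φ) := by
  classical
  rw [← Finset.prod_fiberwise Finset.univ InfinitePlace.mk fun φ : K →+* ℂ => F (InfinitePlace.mk φ)]
  refine Finset.prod_congr rfl fun w _ => ?_
  rw [Finset.prod_congr rfl fun φ hφ => by rw [(Finset.mem_filter.1 hφ).2], Finset.prod_const,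
    InfinitePlace.card_filter_mk_eq]

/-- **The height through an integral representation.** -/
theorem mulHeight_mul_absNorm {n : ℕ} (hn : n ≠ 0) {x : K} {a : 𝓞 K}
    (h : (n : K) * x = (a : K)) :
    Height.mulHeight₁ x * (Ideal.absNorm (Ideal.span {a, (n : 𝓞 K)}) : ℝ) =
      ∏ φ : K →+* ℂ, max ‖φ (a : K)‖ (n : ℝ) := by
  have hn' : (n : K) ≠ 0 := Nat.cast_ne_zero.2 hn
  have hv : ∀ i : Fin 2, ((![a, (n : 𝓞 K)] i : 𝓞 K) : K) = ![(a : K), (n : K)] i := by
    intro i
    fin_cases i
    · rfl
    · exact map_natCast (algebraMap (𝓞 K) K) n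
  have hne : (![a, (n : 𝓞 K)] : Fin 2 → 𝓞 K) ≠ 0 := fun e => hn (by
    simpa using congrFun e 1)
  have hfin := absNorm_mul_finprod_finitePlace_eq_one hne
  simp only [hv, Matrix.range_cons, Matrix.range_empty, Set.union_empty, Set.singleton_union]
    at hfin
  rw [show x = (a : K) / (n : K) by rw [← h, mul_div_cancel_left₀ _ hn'],
    Height.mulHeight₁_div_eq_mulHeight, mulHeight_eq (by simp [hn]), mul_assoc,
    mul_comm (∏ᶠ v : FinitePlace K, _), hfin, mul_one,
    prod_infinitePlace_pow_mult fun w => ⨆ i, w (![(a : K), (n : K)] i)]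
  refine Finset.prod_congr rfl fun φ _ => ?_
  have h0 : InfinitePlace.mk φ (a : K) = ‖φ (a : K)‖ := rfl
  have h1 : InfinitePlace.mk φ (n : K) = (n : ℝ) := by
    rw [show InfinitePlace.mk φ (n : K) = ‖φ (n : K)‖ from rfl, map_natCast, Complex.norm_natCast]
  refine le_antisymm (ciSup_le fun i => ?_) (max_le ?_ ?_)
  · fin_cases i
    · exact h0.le.trans (le_max_left _ _)
    · exact h1.le.trans (le_max_right _ _)
  · exact h0.ge.trans (Finite.le_ciSup_of_le (0 : Fin 2) le_rfl)
  · exact h1.ge.trans (Finite.le_ciSup_of_le (1 : Fin 2) le_rfl)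

/-- **The height in an extension.** -/
theorem mulHeight_map {L : Type*} [Field L] [NumberField L] [Algebra K L] (x : K) :
    Height.mulHeight₁ (algebraMap K L x) = Height.mulHeight₁ x ^ finrank K L := by
  classical
  haveI : FiniteDimensional K L := Module.Finite.of_restrictScalars_finite ℚ K L
  obtain ⟨n, hn, a, ha, -⟩ := exists_nat_ne_zero_exists_integer_mul_eq_and_absNorm_span_eq_pow x
  have ha' : (n : L) * algebraMap K L x = ((algebraMap (𝓞 K) (𝓞 L) a : 𝓞 L) : L) := by
    rw [show ((algebraMap (𝓞 K) (𝓞 L) a : 𝓞 L) : L) = algebraMap K L (a : K) from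
      (IsScalarTower.algebraMap_apply (𝓞 K) (𝓞 L) L a).symm.trans
        (IsScalarTower.algebraMap_apply (𝓞 K) K L a), ← ha, map_mul, map_natCast]
  have h2 := mulHeight_mul_absNorm hn ha'
  have hI : Ideal.span {algebraMap (𝓞 K) (𝓞 L) a, (n : 𝓞 L)} =
      (Ideal.span {a, (n : 𝓞 K)}).map (algebraMap (𝓞 K) (𝓞 L)) := by
    rw [Ideal.map_span, Set.image_pair, map_natCast]
  rw [hI, ← Ideal.absNorm_relNorm (𝓞 K), Ideal.relNorm_algebraMap, map_pow,
    ← IsFractionRing.finrank_eq (𝓞 K) K (𝓞 L) L] at h2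
  have hprod : ∏ ψ : L →+* ℂ, max ‖ψ ((algebraMap (𝓞 K) (𝓞 L) a : 𝓞 L) : L)‖ (n : ℝ) =
      (∏ φ : K →+* ℂ, max ‖φ (a : K)‖ (n : ℝ)) ^ finrank K L := by
    rw [← Finset.prod_pow,
      ← Finset.prod_fiberwise Finset.univ fun ψ : L →+* ℂ => ψ.comp (algebraMap K L)]
    refine Finset.prod_congr rfl fun φ _ => ?_
    rw [Finset.prod_congr rfl (g := fun _ => max ‖φ (a : K)‖ (n : ℝ)) fun ψ hψ => by
      rw [← (Finset.mem_filter.1 hψ).2]
      rfl, Finset.prod_const]
    congr 1
    letI : Algebra K ℂ := φ.toAlgebra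
    rw [← AlgHom.card K L ℂ, ← Fintype.card_subtype]
    exact Fintype.card_congr
      { toFun := fun τ => { τ.1 with commutes' := fun r => RingHom.congr_fun τ.2 r }
        invFun := fun τ => ⟨τ.toRingHom, RingHom.ext fun r => τ.commutes r⟩
        left_inv := fun τ => rfl
        right_inv := fun τ => rfl }
  rw [hprod, ← mulHeight_mul_absNorm hn ha, mul_pow, Nat.cast_pow] at h2
  refine mul_right_cancel₀ (pow_ne_zero _ ?_) h2
  rw [Nat.cast_ne_zero, Ne, Ideal.absNorm_eq_zero_iff, Ideal.span_eq_bot]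
  exact fun e => hn (Nat.cast_eq_zero.1 (e (n : 𝓞 K) (Or.inr rfl)))

/-- The logarithmic height in an extension. -/
theorem logHeight_map {L : Type*} [Field L] [NumberField L] [Algebra K L] (x : K) :
    Height.logHeight₁ (algebraMap K L x) = finrank K L * Height.logHeight₁ x := by
  rw [Height.logHeight₁_eq_log_mulHeight₁, Height.logHeight₁_eq_log_mulHeight₁, mulHeight_map,
    Real.log_pow]

/-- The height is invariant under isomorphisms. -/
theorem logHeight_equiv {L : Type*} [Field L] [NumberField L] (e : K ≃ₐ[ℚ] L) (x : K) :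
    Height.logHeight₁ (e x) = Height.logHeight₁ x := by
  letI : Algebra K L := e.toAlgHom.toRingHom.toAlgebra
  have h1 : finrank K L = 1 := by
    haveI : FiniteDimensional K L := Module.Finite.of_restrictScalars_finite ℚ K L
    have h := finrank_mul_finrank ℚ K L
    rw [← e.toLinearEquiv.finrank_eq] at h
    exact Nat.eq_one_of_mul_eq_one_left
      (Nat.eq_of_mul_eq_mul_left (finrank_pos (R := ℚ) (M := K)) (h.trans (mul_one _).symm) ▸
        mul_one _)
  have h2 := logHeight_map (L := L) x
  rw [h1, Nat.cast_one, one_mul] at h2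
  exact h2

/-- **The height and the absolute height.** -/
theorem logHeight_eq_algHeight (φ : K →ₐ[ℚ] ℂ) (x : K) :
    Height.logHeight₁ x = finrank ℚ K * BiluTorus.algHeight (φ x) := by
  classical
  obtain ⟨θ, hθ⟩ := Field.exists_primitive_element ℚ K
  obtain ⟨E, hE⟩ : ∃ E : IntermediateField ℚ ℂ,
      E = IntermediateField.adjoin ℚ ((minpoly ℚ θ).rootSet ℂ) := ⟨_, rfl⟩
  haveI : (minpoly ℚ θ).IsSplittingField ℚ E := by
    rw [hE]
    exact IntermediateField.adjoin_rootSet_isSplittingField (IsAlgClosed.splits _)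
  haveI : FiniteDimensional ℚ E := IsSplittingField.finiteDimensional E (minpoly ℚ θ)
  haveI : NumberField E := {}
  haveI := Normal.of_isSplittingField (F := ℚ) (E := E) (minpoly ℚ θ)
  haveI : IsGalois ℚ E := ⟨⟩
  have hle : φ.fieldRange ≤ E := by
    rw [AlgHom.fieldRange_eq_map, ← hθ, IntermediateField.adjoin_map, Set.image_singleton, hE]
    refine IntermediateField.adjoin.mono ℚ _ _ (Set.singleton_subset_iff.2 ?_)
    rw [mem_rootSet_of_ne (minpoly.ne_zero (IsIntegral.of_finite ℚ θ)), aeval_algHom_apply,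
      minpoly.aeval, map_zero]
  obtain ⟨ι, hι⟩ : ∃ ι : K →ₐ[ℚ] E, ∀ y, (ι y : ℂ) = φ y :=
    ⟨(IntermediateField.inclusion hle).comp φ.rangeRestrict, fun y => rfl⟩
  letI : Algebra K E := ι.toRingHom.toAlgebra
  obtain ⟨q, hq, hqx⟩ := BiluTorus.exists_irreducible (x := φ x)
    ((IsIntegral.of_finite ℚ x).isAlgebraic.algHom φ)
  have hsum := BiluTorus.sum_logHeight₁ (ι x) hq (by rw [hι]; exact hqx)
  rw [hι, Finset.sum_congr rfl fun g _ => logHeight_equiv g (ι x), Finset.sum_const,
    Finset.card_univ, nsmul_eq_mul, ← Nat.card_eq_fintype_card, IsGalois.card_aut_eq_finrank,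
    show ι x = algebraMap K E x from rfl, logHeight_map] at hsum
  haveI : FiniteDimensional K E := Module.Finite.of_restrictScalars_finite ℚ K E
  have hpos : (0 : ℝ) < finrank K E := Nat.cast_pos.2 finrank_pos
  have hposE : (0 : ℝ) < finrank ℚ E := Nat.cast_pos.2 finrank_pos
  have hmul : (finrank ℚ K : ℝ) * finrank K E = finrank ℚ E := by
    exact_mod_cast finrank_mul_finrank ℚ K E
  have h3 : (finrank K E : ℝ) * Height.logHeight₁ x =
      (finrank ℚ E : ℝ) * BiluTorus.algHeight (φ x) := by
    refine mul_left_cancel₀ hposE.ne' ?_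
    rw [hsum]
    ring
  refine mul_left_cancel₀ hpos.ne' (h3.trans ?_)
  rw [← hmul]
  ring

end FA.AbelianHeight

end
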